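import Mathlib
import Fermat.Agent.S11.Defs

/-!
# Kummer's descent (case 2): the basic structure

`KSol hζ` is a solution of the generalised Fermat equation
`x ^ p + y ^ p = u * (λ ^ n * z) ^ p` in the ring of integers of the `p`-th cyclotomic field,
where `λ = ζ - 1`, `u` is a unit, `1 ≤ n`, `λ ∤ y`, `λ ∤ z` and `x`, `y` are coprime.
-/

set_option autoImplicit false

open NumberField

namespace Fermat.Agent.S11

variable {p : ℕ} [hp : Fact p.Prime] {K : Type*} [Field K] [NumberField K]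
  [IsCyclotomicExtension {p} ℚ K] {ζ : K}

/-- A solution of the generalised Fermat equation `x ^ p + y ^ p = u * (λ ^ n * z) ^ p`,
`λ = ζ - 1`, `n ≥ 1`, `λ ∤ y`, `λ ∤ z`, `x, y` coprime. -/
structure KSol (hζ : IsPrimitiveRoot ζ p) where
  /-- first variable -/
  x : 𝓞 K
  /-- second variable -/
  y : 𝓞 K
  /-- third variable -/
  z : 𝓞 K
  /-- the unit -/
  u : (𝓞 K)ˣ
  /-- the exponent of `λ` -/
  n : ℕ
  hn : 1 ≤ n
  hy : ¬ (hζ.toInteger - 1) ∣ y
  hz : ¬ (hζ.toInteger - 1) ∣ z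
  hxy : IsCoprime x y
  eq : x ^ p + y ^ p = u * ((hζ.toInteger - 1) ^ n * z) ^ p

end Fermat.Agent.S11
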