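import Mathlib
import Fermat.Agent.S11.CaseTwo.Defs

/-!
# Kummer's descent (case 2): the descent step, with its inputs as hypotheses

This file contains the core of the descent step of Kummer's proof of the second case of Fermat's
Last Theorem for a regular prime `p`, in the `p`-th cyclotomic field.  The three inputs

* the factorisation of `x + y`, `x + ζ * y`, `x + ζ ^ (p - 1) * y` (module D-II),
* the inequality `2 ≤ n` for a normalised solution (module D-I),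
* `p`-th powers are congruent to rational integers modulo `p` (module D-0),

are taken as explicit hypotheses here, so that this file only depends on Mathlib and on the
definition of `KSol`.
-/

set_option autoImplicit false
set_option linter.unusedSectionVars false

open NumberField

namespace Fermat.Agent.S11

variable {p : ℕ} [hp : Fact p.Prime] {K : Type*} [Field K] [NumberField K]
  [IsCyclotomicExtension {p} ℚ K] {ζ : K}

variable (hζ : IsPrimitiveRoot ζ p)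

namespace Descent

/-- `p` divides `(ζ - 1) ^ m` as soon as `p - 1 ≤ m`. -/
theorem prime_dvd_zeta_sub_one_pow {m : ℕ} (hm : p - 1 ≤ m) :
    (p : 𝓞 K) ∣ (hζ.toInteger - 1) ^ m := by
  have h := (IsCyclotomicExtension.Rat.associated_zeta_sub_one_pow_prime p hζ).symm.dvd
  exact h.trans (pow_dvd_pow _ hm)

/-- If `ζ - 1 ∤ x` and `p ∣ x - n` for a rational integer `n`, then `p ∤ n`. -/
theorem not_prime_dvd_int_of_not_zeta_sub_one_dvd {x : 𝓞 K} (hx : ¬ (hζ.toInteger - 1) ∣ x)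
    {n : ℤ} (hn : (p : 𝓞 K) ∣ x - (n : 𝓞 K)) : ¬ (p : ℤ) ∣ n := by
  intro h
  apply hx
  have h1 : (hζ.toInteger - 1) ∣ (n : 𝓞 K) :=
    (IsCyclotomicExtension.Rat.zeta_sub_one_dvd_intCast_iff' p hζ).mpr h
  have h2 : (hζ.toInteger - 1) ∣ x - (n : 𝓞 K) := hζ.toInteger_sub_one_dvd_prime'.trans hn
  simpa using dvd_add h2 h1

/-- `1 + ζ` is a unit for `p` odd. -/
theorem isUnit_one_add_zeta (hp2 : p ≠ 2) : IsUnit (1 + hζ.toInteger) := by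
  have h2 : Nat.Coprime 2 p := (Nat.coprime_primes Nat.prime_two hp.out).mpr (Ne.symm hp2)
  have := hζ.toInteger_isPrimitiveRoot.geom_sum_isUnit hp.out.two_le h2
  simpa [Finset.sum_range_succ] using this

/-- A unit `η` with `ρ₁ ^ p + η * ρ₂ ^ p ≡ 0 mod p` and `ζ - 1 ∤ ρ₂` is congruent to a rational
integer modulo `p`, provided `p`-th powers are congruent to rational integers modulo `p`. -/
theorem exists_int_sub_unit_dvd
    (hpow : ∀ x : 𝓞 K, ∃ n : ℤ, (p : 𝓞 K) ∣ x ^ p - (n : 𝓞 K))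
    {ρ₁ ρ₂ : 𝓞 K} (η : (𝓞 K)ˣ)
    (hρ₂ : ¬ (hζ.toInteger - 1) ∣ ρ₂) (h : (p : 𝓞 K) ∣ ρ₁ ^ p + η * ρ₂ ^ p) :
    ∃ N : ℤ, (p : 𝓞 K) ∣ (η : 𝓞 K) - (N : 𝓞 K) := by
  obtain ⟨n₁, hn₁⟩ := hpow ρ₁
  obtain ⟨n₂, hn₂⟩ := hpow ρ₂
  have hρ₂p : ¬ (hζ.toInteger - 1) ∣ ρ₂ ^ p := fun h' ↦
    hρ₂ (hζ.zeta_sub_one_prime'.dvd_of_dvd_pow h')
  have hpn₂ : ¬ (p : ℤ) ∣ n₂ := not_prime_dvd_int_of_not_zeta_sub_one_dvd hζ hρ₂p hn₂
  have hcop : IsCoprime n₂ (p : ℤ) :=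
    ((Nat.prime_iff_prime_int.mp hp.out).coprime_iff_not_dvd.mpr hpn₂).symm
  obtain ⟨a, b, hab⟩ := hcop
  have key : (p : 𝓞 K) ∣ (n₁ : 𝓞 K) + η * (n₂ : 𝓞 K) := by
    have : (n₁ : 𝓞 K) + η * (n₂ : 𝓞 K) =
        (ρ₁ ^ p + η * ρ₂ ^ p) - (ρ₁ ^ p - n₁) - η * (ρ₂ ^ p - n₂) := by ring
    rw [this]
    exact dvd_sub (dvd_sub h hn₁) (Dvd.dvd.mul_left hn₂ _)
  refine ⟨-(a * n₁), ?_⟩
  have hab' : (a : 𝓞 K) * (n₂ : 𝓞 K) + (b : 𝓞 K) * (p : 𝓞 K) = 1 := by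
    have := congrArg (Int.cast : ℤ → 𝓞 K) hab
    simpa using this
  have : (η : 𝓞 K) - ((-(a * n₁) : ℤ) : 𝓞 K) =
      (a : 𝓞 K) * ((n₁ : 𝓞 K) + η * (n₂ : 𝓞 K)) + (p : 𝓞 K) * (η * b) := by
    push_cast
    linear_combination (-(η : 𝓞 K)) * hab'
  rw [this]
  exact dvd_add (Dvd.dvd.mul_left key _) (dvd_mul_right _ _)

/-- The descent step, with the factorisation, the inequality `2 ≤ n` and the congruence of
`p`-th powers to rational integers as hypotheses. -/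
theorem descent_of (hp2 : p ≠ 2) (hK : KummerLemmaHolds p K)
    (hpow : ∀ x : 𝓞 K, ∃ n : ℤ, (p : 𝓞 K) ∣ x ^ p - (n : 𝓞 K))
    (S : KSol hζ) (hn2 : 2 ≤ S.n)
    (hfac : ∃ (ρ₀ ρ₁ ρ₂ : 𝓞 K) (ε₀ ε₁ ε₂ : (𝓞 K)ˣ),
      S.x + S.y = ε₀ * (hζ.toInteger - 1) ^ (p * (S.n - 1) + 1) * ρ₀ ^ p ∧
      S.x + hζ.toInteger * S.y = ε₁ * (hζ.toInteger - 1) * ρ₁ ^ p ∧
      S.x + hζ.toInteger ^ (p - 1) * S.y = ε₂ * (hζ.toInteger - 1) * ρ₂ ^ p ∧
      ¬ (hζ.toInteger - 1) ∣ ρ₀ ∧ ¬ (hζ.toInteger - 1) ∣ ρ₂ ∧ IsCoprime ρ₁ ρ₂) :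
    ∃ S' : KSol hζ, S'.n + 1 = S.n := by
  obtain ⟨ρ₀, ρ₁, ρ₂, ε₀, ε₁, ε₂, h0, h1, h2, hρ₀, hρ₂, hcop⟩ := hfac
  have hl0 : hζ.toInteger - 1 ≠ 0 := hζ.zeta_sub_one_prime'.ne_zero
  have hζp : hζ.toInteger ^ p = 1 := hζ.toInteger_isPrimitiveRoot.pow_eq_one
  have hp1 : p - 1 + 1 = p := Nat.sub_add_cancel hp.out.one_le
  have hζp' : hζ.toInteger * hζ.toInteger ^ (p - 1) = 1 := by
    rw [← pow_succ', hp1, hζp]
  -- units
  obtain ⟨ζu, hζu⟩ : IsUnit hζ.toInteger :=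
    hζ.toInteger_isPrimitiveRoot.isUnit hp.out.ne_zero
  obtain ⟨θ, hθ⟩ := isUnit_one_add_zeta hζ hp2
  -- the key relation
  have hrel : (ε₁ : 𝓞 K) * ρ₁ ^ p + hζ.toInteger * ε₂ * ρ₂ ^ p =
      (1 + hζ.toInteger) * ε₀ * (hζ.toInteger - 1) ^ (p * (S.n - 1)) * ρ₀ ^ p := by
    apply mul_left_cancel₀ hl0
    have e : (S.x + hζ.toInteger * S.y) + hζ.toInteger * (S.x + hζ.toInteger ^ (p - 1) * S.y) =
        (1 + hζ.toInteger) * (S.x + S.y) := by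
      linear_combination S.y * hζp'
    rw [h0, h1, h2] at e
    rw [pow_succ] at e
    linear_combination e
  set η : (𝓞 K)ˣ := ε₁⁻¹ * ζu * ε₂ with hη
  set w : (𝓞 K)ˣ := ε₁⁻¹ * θ * ε₀ with hw
  have hrel' : ρ₁ ^ p + η * ρ₂ ^ p = w * ((hζ.toInteger - 1) ^ (S.n - 1) * ρ₀) ^ p := by
    have : (ε₁ : 𝓞 K) * (ρ₁ ^ p + η * ρ₂ ^ p) =
        ε₁ * (w * ((hζ.toInteger - 1) ^ (S.n - 1) * ρ₀) ^ p) := by
      simp only [hη, hw, Units.val_mul, hζu, hθ]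
      rw [mul_pow, ← pow_mul, mul_comm (S.n - 1) p]
      have hε : (ε₁ : 𝓞 K) * ((ε₁⁻¹ : (𝓞 K)ˣ) : 𝓞 K) = 1 := by simp
      linear_combination hrel +
        (hζ.toInteger * ε₂ * ρ₂ ^ p -
          (1 + hζ.toInteger) * ε₀ * ((hζ.toInteger - 1) ^ (p * (S.n - 1)) * ρ₀ ^ p)) * hε
    exact mul_left_cancel₀ ε₁.ne_zero this
  -- `η` is congruent to an integer mod `p`
  have hpdvd : (p : 𝓞 K) ∣ ρ₁ ^ p + η * ρ₂ ^ p := by
    rw [hrel', mul_pow, ← pow_mul]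
    refine Dvd.dvd.mul_left (Dvd.dvd.mul_right (prime_dvd_zeta_sub_one_pow hζ ?_) _) _
    calc p - 1 ≤ p := Nat.sub_le _ _
      _ = 1 * p := (one_mul p).symm
      _ ≤ (S.n - 1) * p := Nat.mul_le_mul_right p (by omega)
  obtain ⟨N, hN⟩ := exists_int_sub_unit_dvd hζ hpow η hρ₂ hpdvd
  obtain ⟨v, hv⟩ := hK η N hN
  refine ⟨⟨ρ₁, v * ρ₂, ρ₀, w, S.n - 1, by omega, ?_, hρ₀, ?_, ?_⟩, by simp only; omega⟩
  · rwa [Units.dvd_mul_left]
  · exact (isCoprime_mul_unit_left_right v.isUnit ρ₁ ρ₂).mpr hcop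
  · rw [← hrel', hv, mul_pow]
    simp

/-- The induction: if every solution can be normalised and every normalised solution descends,
there is no solution. -/
theorem false_of
    (hnorm : ∀ S : KSol hζ, ∃ S' : KSol hζ, S'.n = S.n ∧ (hζ.toInteger - 1) ^ 2 ∣ S'.x + S'.y)
    (hdesc : ∀ S : KSol hζ, (hζ.toInteger - 1) ^ 2 ∣ S.x + S.y → ∃ S' : KSol hζ, S'.n + 1 = S.n)
    (S : KSol hζ) : False := by
  suffices H : ∀ n : ℕ, ∀ S : KSol hζ, S.n = n → False from H S.n S rfl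
  intro n
  induction n with
  | zero =>
    intro S hS
    have := S.hn
    omega
  | succ n ih =>
    intro S hS
    obtain ⟨S', hS'n, hS'⟩ := hnorm S
    obtain ⟨S'', hS''⟩ := hdesc S' hS'
    exact ih S'' (by omega)

end Descent

end Fermat.Agent.S11
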