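import Mathlib
import Fermat.Agent.S11.CaseTwo.Defs

/-!
# Kummer's descent (case 2), part D-I: local analysis at `λ = ζ - 1`

General lemmas about the factors `x + η y` (`η` a `p`-th root of unity) of `x ^ p + y ^ p` in the
ring of integers of the `p`-th cyclotomic field (namespace `Fermat.Agent.S11.Local`), and their
specialisation to the structure `KSol` (namespace `Fermat.Agent.S11.KSol`).
-/

set_option autoImplicit false
set_option linter.unusedSectionVars false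
set_option linter.unusedVariables false

open NumberField Polynomial Finset

namespace Fermat.Agent.S11

namespace Local

section

variable {p : ℕ} [hp : Fact p.Prime] {K : Type*} [Field K] [NumberField K]
  [hK : IsCyclotomicExtension {p} ℚ K] {ζ : K} (hζ : IsPrimitiveRoot ζ p)

include hζ in
/-- Every `p`-th power in `𝓞 K` is congruent to a rational integer modulo `p`. -/
theorem exists_int_dvd_pow_sub (c : 𝓞 K) : ∃ m : ℤ, (p : 𝓞 K) ∣ c ^ p - (m : 𝓞 K) := by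
  have htop : Algebra.adjoin ℤ {hζ.toInteger} = ⊤ :=
    IsCyclotomicExtension.Rat.adjoin_singleton_eq_top hζ
  have hc : c ∈ Algebra.adjoin ℤ {hζ.toInteger} := by rw [htop]; trivial
  induction hc using Algebra.adjoin_induction with
  | mem x hx =>
    rw [Set.mem_singleton_iff] at hx
    refine ⟨1, ?_⟩
    rw [hx, hζ.toInteger_isPrimitiveRoot.pow_eq_one]
    simp
  | algebraMap r =>
    refine ⟨r ^ p, ?_⟩
    simp
  | add x y _ _ hx hy =>
    obtain ⟨m, hm⟩ := hx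
    obtain ⟨n, hn⟩ := hy
    obtain ⟨r, hr⟩ := exists_add_pow_prime_eq hp.out x y
    refine ⟨m + n, ?_⟩
    rw [hr]
    have : x ^ p + y ^ p + (p : 𝓞 K) * x * y * r - ((m + n : ℤ) : 𝓞 K) =
        (x ^ p - m) + (y ^ p - n) + (p : 𝓞 K) * (x * y * r) := by
      push_cast; ring
    rw [this]
    exact dvd_add (dvd_add hm hn) (dvd_mul_right _ _)
  | mul x y _ _ hx hy =>
    obtain ⟨m, hm⟩ := hx
    obtain ⟨n, hn⟩ := hy
    refine ⟨m * n, ?_⟩
    have : (x * y) ^ p - ((m * n : ℤ) : 𝓞 K) = (x ^ p - m) * y ^ p + m * (y ^ p - n) := by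
      push_cast; ring
    rw [this]
    exact dvd_add (dvd_mul_of_dvd_left hm _) (dvd_mul_of_dvd_right hn _)

include hζ in
/-- If `π ∤ c` and `c ^ p ≡ m (mod p)` with `m` a rational integer, then `p ∤ m`. -/
theorem not_dvd_int_of_not_dvd {c : 𝓞 K} (hc : ¬ hζ.toInteger - 1 ∣ c) {m : ℤ}
    (hm : (p : 𝓞 K) ∣ c ^ p - (m : 𝓞 K)) : ¬ (p : ℤ) ∣ m := by
  intro hpm
  apply hc
  have hπ : Prime (hζ.toInteger - 1) := hζ.zeta_sub_one_prime'
  have h1 : hζ.toInteger - 1 ∣ (m : 𝓞 K) :=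
    (IsCyclotomicExtension.Rat.zeta_sub_one_dvd_intCast_iff' p hζ).mpr hpm
  have h2 : hζ.toInteger - 1 ∣ c ^ p - (m : 𝓞 K) :=
    dvd_trans hζ.toInteger_sub_one_dvd_prime' hm
  have h3 : hζ.toInteger - 1 ∣ c ^ p := by
    have := dvd_add h2 h1
    simpa using this
  exact hπ.dvd_of_dvd_pow h3

include hζ in
/-- All the factors `x + η y` are divisible by `π` as soon as their product is. -/
theorem dvd_add_mul_of_dvd_pow_add_pow (hp2 : p ≠ 2) {x y : 𝓞 K}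
    (h : hζ.toInteger - 1 ∣ x ^ p + y ^ p) {η : 𝓞 K} (hη : η ∈ nthRootsFinset p (1 : 𝓞 K)) :
    hζ.toInteger - 1 ∣ x + η * y := by
  have hπ : Prime (hζ.toInteger - 1) := hζ.zeta_sub_one_prime'
  have hodd : Odd p := hp.out.odd_of_ne_two hp2
  rw [hζ.toInteger_isPrimitiveRoot.pow_add_pow_eq_prod_add_mul x y hodd] at h
  obtain ⟨η₁, hη₁, hdvd⟩ := hπ.exists_mem_finset_dvd h
  have h2 : hζ.toInteger - 1 ∣ η - η₁ :=
    hζ.toInteger_isPrimitiveRoot.sub_one_dvd_sub hp.out hη hη₁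
  have : x + η * y = (x + η₁ * y) + (η - η₁) * y := by ring
  rw [this]
  exact dvd_add hdvd (dvd_mul_of_dvd_left h2 _)

include hζ in
/-- The quotient `𝓞 K ⧸ (π)` has exactly `p` elements. -/
theorem card_quotient_span_pi (hp2 : p ≠ 2) :
    Nat.card (𝓞 K ⧸ Ideal.span {hζ.toInteger - 1}) = p := by
  rw [hζ.card_quotient_toInteger_sub_one, hζ.norm_toInteger_sub_one_of_prime_ne_two' hp2]
  simp

include hζ in
/-- There is a `p`-th root of unity `η` with `π ^ 2 ∣ x + η y`. -/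
theorem exists_sq_dvd_add_mul (hp2 : p ≠ 2) {x y : 𝓞 K}
    (h : hζ.toInteger - 1 ∣ x ^ p + y ^ p) (hy : ¬ hζ.toInteger - 1 ∣ y) :
    ∃ η ∈ nthRootsFinset p (1 : 𝓞 K), (hζ.toInteger - 1) ^ 2 ∣ x + η * y := by
  classical
  have hπ : Prime (hζ.toInteger - 1) := hζ.zeta_sub_one_prime'
  have hdvd : ∀ η ∈ nthRootsFinset p (1 : 𝓞 K), hζ.toInteger - 1 ∣ x + η * y :=
    fun η hη ↦ dvd_add_mul_of_dvd_pow_add_pow hζ hp2 h hη
  choose! a ha using hdvd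
  let f : (nthRootsFinset p (1 : 𝓞 K)) → 𝓞 K ⧸ Ideal.span {hζ.toInteger - 1} :=
    fun η ↦ Ideal.Quotient.mk _ (a η)
  have hfin : Finite (𝓞 K ⧸ Ideal.span {hζ.toInteger - 1}) :=
    Nat.finite_of_card_ne_zero (by rw [card_quotient_span_pi hζ hp2]; exact hp.out.ne_zero)
  have hinj : Function.Injective f := by
    rintro ⟨η₁, hη₁⟩ ⟨η₂, hη₂⟩ h12
    by_contra hne
    have hne' : η₁ ≠ η₂ := fun e ↦ hne (Subtype.ext e)
    simp only [f] at h12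
    rw [Ideal.Quotient.eq, Ideal.mem_span_singleton] at h12
    obtain ⟨u, hu⟩ :=
      hζ.toInteger_isPrimitiveRoot.nthRootsFinset_pairwise_associated_sub_one_sub_of_prime
        hp.out hη₁ hη₂ hne'
    have e1 : (hζ.toInteger - 1) * (a η₁ - a η₂) = (hζ.toInteger - 1) * (u * y) := by
      have := ha η₁ hη₁
      have := ha η₂ hη₂
      calc (hζ.toInteger - 1) * (a η₁ - a η₂)
          = (x + η₁ * y) - (x + η₂ * y) := by rw [ha η₁ hη₁, ha η₂ hη₂]; ring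
        _ = (η₁ - η₂) * y := by ring
        _ = (hζ.toInteger - 1) * (u * y) := by rw [← hu]; ring
    have e2 : a η₁ - a η₂ = u * y := mul_left_cancel₀ hπ.ne_zero e1
    rw [e2] at h12
    exact hy ((Units.dvd_mul_left).mp h12)
  have hcard : Nat.card (𝓞 K ⧸ Ideal.span {hζ.toInteger - 1}) ≤
      Nat.card (nthRootsFinset p (1 : 𝓞 K)) := by
    rw [card_quotient_span_pi hζ hp2, Nat.card_eq_fintype_card, Fintype.card_coe,
      hζ.toInteger_isPrimitiveRoot.card_nthRootsFinset]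
  obtain ⟨⟨η, hη⟩, hη0⟩ := (hinj.bijective_of_nat_card_le hcard).2 0
  refine ⟨η, hη, ?_⟩
  simp only [f] at hη0
  rw [Ideal.Quotient.eq_zero_iff_mem, Ideal.mem_span_singleton] at hη0
  rw [ha η hη, pow_two]
  exact mul_dvd_mul_left _ hη0

include hζ in
/-- The difference of two quotients `(x + η y) / π` is a unit multiple of `y`, and a twisted
difference is a unit multiple of `x`. -/
theorem quot_sub_quot {x y : 𝓞 K} {η₁ η₂ a₁ a₂ : 𝓞 K}
    (hη₁ : η₁ ∈ nthRootsFinset p (1 : 𝓞 K)) (hη₂ : η₂ ∈ nthRootsFinset p (1 : 𝓞 K))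
    (hne : η₁ ≠ η₂) (h₁ : x + η₁ * y = (hζ.toInteger - 1) * a₁)
    (h₂ : x + η₂ * y = (hζ.toInteger - 1) * a₂) :
    ∃ u : (𝓞 K)ˣ, a₁ - a₂ = u * y ∧ η₂ * a₁ - η₁ * a₂ = - (u * x) := by
  have hπ : Prime (hζ.toInteger - 1) := hζ.zeta_sub_one_prime'
  obtain ⟨u, hu⟩ :=
    hζ.toInteger_isPrimitiveRoot.nthRootsFinset_pairwise_associated_sub_one_sub_of_prime
      hp.out hη₁ hη₂ hne
  refine ⟨u, ?_, ?_⟩
  · apply mul_left_cancel₀ hπ.ne_zero
    calc (hζ.toInteger - 1) * (a₁ - a₂)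
        = (x + η₁ * y) - (x + η₂ * y) := by rw [h₁, h₂]; ring
      _ = (η₁ - η₂) * y := by ring
      _ = (hζ.toInteger - 1) * (u * y) := by rw [← hu]; ring
  · apply mul_left_cancel₀ hπ.ne_zero
    calc (hζ.toInteger - 1) * (η₂ * a₁ - η₁ * a₂)
        = η₂ * (x + η₁ * y) - η₁ * (x + η₂ * y) := by rw [h₁, h₂]; ring
      _ = - ((η₁ - η₂) * x) := by ring
      _ = (hζ.toInteger - 1) * (- (u * x)) := by rw [← hu]; ring

include hζ in
/-- The quotients `(x + η y) / π` are pairwise coprime. -/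
theorem isCoprime_quot {x y : 𝓞 K} (hxy : IsCoprime x y) {η₁ η₂ a₁ a₂ : 𝓞 K}
    (hη₁ : η₁ ∈ nthRootsFinset p (1 : 𝓞 K)) (hη₂ : η₂ ∈ nthRootsFinset p (1 : 𝓞 K))
    (hne : η₁ ≠ η₂) (h₁ : x + η₁ * y = (hζ.toInteger - 1) * a₁)
    (h₂ : x + η₂ * y = (hζ.toInteger - 1) * a₂) : IsCoprime a₁ a₂ := by
  obtain ⟨u, hu₁, hu₂⟩ := quot_sub_quot hζ hη₁ hη₂ hne h₁ h₂
  obtain ⟨r, s, hrs⟩ := hxy
  refine ⟨(↑u⁻¹ : 𝓞 K) * (s - r * η₂), (↑u⁻¹ : 𝓞 K) * (r * η₁ - s), ?_⟩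
  have hux : (↑u⁻¹ : 𝓞 K) * (u * x) = x := by
    rw [← mul_assoc, Units.inv_mul, one_mul]
  have huy : (↑u⁻¹ : 𝓞 K) * (u * y) = y := by
    rw [← mul_assoc, Units.inv_mul, one_mul]
  have e1 : (↑u⁻¹ : 𝓞 K) * (a₁ - a₂) = y := by rw [hu₁, huy]
  have e2 : (↑u⁻¹ : 𝓞 K) * (η₂ * a₁ - η₁ * a₂) = - x := by rw [hu₂, mul_neg, hux]
  linear_combination s * e1 - r * e2 + hrs

include hζ in
/-- At most one of the quotients `(x + η y) / π` is divisible by `π`. -/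
theorem not_dvd_quot {x y : 𝓞 K} (hy : ¬ hζ.toInteger - 1 ∣ y) {η₁ η₂ a₁ a₂ : 𝓞 K}
    (hη₁ : η₁ ∈ nthRootsFinset p (1 : 𝓞 K)) (hη₂ : η₂ ∈ nthRootsFinset p (1 : 𝓞 K))
    (hne : η₁ ≠ η₂) (h₁ : x + η₁ * y = (hζ.toInteger - 1) * a₁)
    (h₂ : x + η₂ * y = (hζ.toInteger - 1) * a₂) (ha₁ : hζ.toInteger - 1 ∣ a₁) :
    ¬ hζ.toInteger - 1 ∣ a₂ := by
  intro ha₂
  obtain ⟨u, hu₁, -⟩ := quot_sub_quot hζ hη₁ hη₂ hne h₁ h₂
  have : hζ.toInteger - 1 ∣ (u : 𝓞 K) * y := hu₁ ▸ dvd_sub ha₁ ha₂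
  exact hy ((Units.dvd_mul_left).mp this)

include hζ in
/-- The congruence that feeds Kummer's lemma. -/
theorem exists_int_dvd_unit_sub {c₁ c₂ R : 𝓞 K} {η : (𝓞 K)ˣ}
    (h : c₁ ^ p + η * c₂ ^ p = R) (hR : (p : 𝓞 K) ∣ R) (hc₂ : ¬ hζ.toInteger - 1 ∣ c₂) :
    ∃ m : ℤ, (p : 𝓞 K) ∣ (η : 𝓞 K) - (m : 𝓞 K) := by
  obtain ⟨m₁, hm₁⟩ := exists_int_dvd_pow_sub hζ c₁
  obtain ⟨m₂, hm₂⟩ := exists_int_dvd_pow_sub hζ c₂
  have hpm₂ : ¬ (p : ℤ) ∣ m₂ := not_dvd_int_of_not_dvd hζ hc₂ hm₂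
  have hcop : IsCoprime m₂ (p : ℤ) := by
    rw [isCoprime_comm]
    exact (Nat.prime_iff_prime_int.mp hp.out).coprime_iff_not_dvd.mpr hpm₂
  obtain ⟨a, b, hab⟩ := hcop
  have hab' : (a : 𝓞 K) * m₂ + b * p = 1 := by exact_mod_cast congrArg (Int.cast : ℤ → 𝓞 K) hab
  refine ⟨- (a * m₁), ?_⟩
  have key : (η : 𝓞 K) - ((- (a * m₁) : ℤ) : 𝓞 K) =
      (a : 𝓞 K) * R - a * (c₁ ^ p - m₁) - a * η * (c₂ ^ p - m₂) + (p : 𝓞 K) * (b * η) := by
    rw [← h]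
    push_cast
    linear_combination (-(η : 𝓞 K)) * hab'
  rw [key]
  exact dvd_add (dvd_sub (dvd_sub (dvd_mul_of_dvd_right hR _) (dvd_mul_of_dvd_right hm₁ _))
    (dvd_mul_of_dvd_right hm₂ _)) (dvd_mul_right _ _)

end


end Local

section KSolLemmas

variable {p : ℕ} [hp : Fact p.Prime] {K : Type*} [Field K] [NumberField K]
  [IsCyclotomicExtension {p} ℚ K] {ζ : K} (hζ : IsPrimitiveRoot ζ p)

/-- `λ` divides `x ^ p + y ^ p` for a solution. -/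
theorem KSol.lambda_dvd_pow_add_pow (S : KSol hζ) :
    (hζ.toInteger - 1) ∣ S.x ^ p + S.y ^ p := by
  rw [S.eq]
  apply dvd_mul_of_dvd_right
  apply dvd_pow _ hp.out.ne_zero
  exact dvd_mul_of_dvd_left (dvd_pow_self _ (by have := S.hn; omega)) _

include hζ in
/-- Powers of `ζ` are `p`-th roots of unity. -/
theorem Local.zeta_pow_mem (i : ℕ) :
    hζ.toInteger ^ i ∈ nthRootsFinset p (1 : 𝓞 K) := by
  rw [mem_nthRootsFinset hp.out.pos]
  rw [← pow_mul, mul_comm, pow_mul, hζ.toInteger_isPrimitiveRoot.pow_eq_one, one_pow]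

/-- `1` is a `p`-th root of unity. -/
theorem Local.one_mem : (1 : 𝓞 K) ∈ nthRootsFinset p (1 : 𝓞 K) := by
  rw [mem_nthRootsFinset hp.out.pos, one_pow]

/-- D-I.1 every factor is divisible by `λ`. -/
theorem KSol.lambda_dvd_add (hp2 : p ≠ 2) (S : KSol hζ) (i : ℕ) :
    (hζ.toInteger - 1) ∣ S.x + hζ.toInteger ^ i * S.y :=
  Local.dvd_add_mul_of_dvd_pow_add_pow hζ hp2 (S.lambda_dvd_pow_add_pow hζ)
    (Local.zeta_pow_mem hζ i)

/-- D-I.2 normalisation: one may assume `λ ^ 2 ∣ x + y` (replace `y` by `η * y`). -/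
theorem KSol.exists_normalized (hp2 : p ≠ 2) (S : KSol hζ) :
    ∃ S' : KSol hζ, S'.n = S.n ∧ (hζ.toInteger - 1) ^ 2 ∣ S'.x + S'.y := by
  obtain ⟨η, hη, hdvd⟩ :=
    Local.exists_sq_dvd_add_mul hζ hp2 (S.lambda_dvd_pow_add_pow hζ) S.hy
  have hηp : η ^ p = 1 := (mem_nthRootsFinset hp.out.pos 1).mp hη
  have hηu : IsUnit η := IsUnit.of_pow_eq_one hηp hp.out.ne_zero
  refine ⟨{ x := S.x, y := η * S.y, z := S.z, u := S.u, n := S.n, hn := S.hn, hy := ?_,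
            hz := S.hz, hxy := ?_, eq := ?_ }, rfl, hdvd⟩
  · rw [hηu.dvd_mul_left]
    exact S.hy
  · exact (isCoprime_mul_unit_left_right hηu S.x S.y).mpr S.hxy
  · rw [mul_pow, hηp, one_mul, S.eq]

/-- D-I.3 for a normalised solution the other factors are exactly divisible by `λ`. -/
theorem KSol.not_lambda_sq_dvd_add (hp2 : p ≠ 2) (S : KSol hζ)
    (hS : (hζ.toInteger - 1) ^ 2 ∣ S.x + S.y) {i : ℕ} (hi : ¬ p ∣ i) :
    ¬ (hζ.toInteger - 1) ^ 2 ∣ S.x + hζ.toInteger ^ i * S.y := by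
  intro h
  have hπ : Prime (hζ.toInteger - 1) := hζ.zeta_sub_one_prime'
  have hne : hζ.toInteger ^ i ≠ 1 := fun e ↦
    hi ((hζ.toInteger_isPrimitiveRoot.pow_eq_one_iff_dvd i).mp e)
  obtain ⟨u, hu⟩ :=
    hζ.toInteger_isPrimitiveRoot.nthRootsFinset_pairwise_associated_sub_one_sub_of_prime
      hp.out (Local.zeta_pow_mem hζ i) Local.one_mem hne
  have h2 : (hζ.toInteger - 1) ^ 2 ∣ (hζ.toInteger - 1) * (u * S.y) := by
    have : (hζ.toInteger - 1) * (u * S.y) =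
        (S.x + hζ.toInteger ^ i * S.y) - (S.x + S.y) := by
      rw [← mul_assoc, hu]; ring
    rw [this]
    exact dvd_sub h hS
  rw [pow_two, mul_dvd_mul_iff_left hπ.ne_zero] at h2
  exact S.hy ((Units.dvd_mul_left).mp h2)

/-- D-I.4 for a normalised solution, `x + y = λ ^ (p * (n - 1) + 1) * w` with `λ ∤ w`. -/
theorem KSol.exists_add_eq (hp2 : p ≠ 2) (S : KSol hζ)
    (hS : (hζ.toInteger - 1) ^ 2 ∣ S.x + S.y) :
    ∃ w : 𝓞 K, S.x + S.y = (hζ.toInteger - 1) ^ (p * (S.n - 1) + 1) * w ∧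
      ¬ (hζ.toInteger - 1) ∣ w := by
  classical
  have hπ : Prime (hζ.toInteger - 1) := hζ.zeta_sub_one_prime'
  have hodd : Odd p := hp.out.odd_of_ne_two hp2
  have hζ' := hζ.toInteger_isPrimitiveRoot
  have h1 : (1 : 𝓞 K) ∈ nthRootsFinset p (1 : 𝓞 K) := Local.one_mem
  have hdvd : ∀ η ∈ nthRootsFinset p (1 : 𝓞 K), hζ.toInteger - 1 ∣ S.x + η * S.y :=
    fun η hη ↦ Local.dvd_add_mul_of_dvd_pow_add_pow hζ hp2 (S.lambda_dvd_pow_add_pow hζ) hη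
  choose! a ha using hdvd
  have ha1 : hζ.toInteger - 1 ∣ a 1 := by
    have := ha 1 h1
    rw [one_mul] at this
    rw [this, pow_two] at hS
    exact (mul_dvd_mul_iff_left hπ.ne_zero).mp hS
  have hane : ∀ η ∈ (nthRootsFinset p (1 : 𝓞 K)).erase 1, ¬ hζ.toInteger - 1 ∣ a η := by
    intro η hη
    rw [Finset.mem_erase] at hη
    exact Local.not_dvd_quot hζ S.hy h1 hη.2 (Ne.symm hη.1) (ha 1 h1) (ha η hη.2) ha1
  set B : 𝓞 K := ∏ η ∈ (nthRootsFinset p (1 : 𝓞 K)).erase 1, a η with hB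
  have hBnd : ¬ hζ.toInteger - 1 ∣ B := by
    intro h
    obtain ⟨η, hη, hη'⟩ := (Prime.dvd_finsetProd_iff hπ _).mp h
    exact hane η hη hη'
  have hprod : (S.x + S.y) * ((hζ.toInteger - 1) ^ (p - 1) * B) =
      S.u * ((hζ.toInteger - 1) ^ S.n * S.z) ^ p := by
    rw [← S.eq, hζ'.pow_add_pow_eq_prod_add_mul S.x S.y hodd, ← Finset.mul_prod_erase _ _ h1,
      one_mul]
    congr 1
    rw [Finset.prod_congr rfl (fun η hη ↦ ha η (Finset.mem_of_mem_erase hη)),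
      Finset.prod_mul_distrib, Finset.prod_const, Finset.card_erase_of_mem h1,
      hζ'.card_nthRootsFinset]
  have hexp : S.n * p = (p - 1) + (p * (S.n - 1) + 1) := by
    obtain ⟨m, hm⟩ := Nat.exists_eq_add_of_le S.hn
    obtain ⟨q, hq⟩ := Nat.exists_eq_add_of_le hp.out.one_le
    rw [hm, hq]
    simp only [Nat.add_sub_cancel_left]
    ring
  have hprod' : (S.x + S.y) * B =
      (hζ.toInteger - 1) ^ (p * (S.n - 1) + 1) * (S.u * S.z ^ p) := by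
    apply mul_left_cancel₀ (pow_ne_zero (p - 1) hπ.ne_zero)
    calc (hζ.toInteger - 1) ^ (p - 1) * ((S.x + S.y) * B)
        = (S.x + S.y) * ((hζ.toInteger - 1) ^ (p - 1) * B) := by ring
      _ = S.u * ((hζ.toInteger - 1) ^ S.n * S.z) ^ p := hprod
      _ = (hζ.toInteger - 1) ^ (p - 1) *
            ((hζ.toInteger - 1) ^ (p * (S.n - 1) + 1) * (S.u * S.z ^ p)) := by
          rw [mul_pow, ← pow_mul, hexp, pow_add]; ring
  have hdvdA : (hζ.toInteger - 1) ^ (p * (S.n - 1) + 1) ∣ S.x + S.y :=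
    hπ.pow_dvd_of_dvd_mul_right _ hBnd (Dvd.intro _ hprod'.symm)
  obtain ⟨w, hw⟩ := hdvdA
  refine ⟨w, hw, fun hdw ↦ ?_⟩
  have h3 : w * B = S.u * S.z ^ p := by
    apply mul_left_cancel₀ (pow_ne_zero (p * (S.n - 1) + 1) hπ.ne_zero)
    rw [← hprod', hw]; ring
  have h4 : hζ.toInteger - 1 ∣ (S.u : 𝓞 K) * S.z ^ p := h3 ▸ dvd_mul_of_dvd_left hdw B
  exact S.hz (hπ.dvd_of_dvd_pow ((Units.dvd_mul_left).mp h4))

/-- D-I.5 for a normalised solution, `2 ≤ n`. -/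
theorem KSol.two_le_n (hp2 : p ≠ 2) (S : KSol hζ)
    (hS : (hζ.toInteger - 1) ^ 2 ∣ S.x + S.y) : 2 ≤ S.n := by
  have hπ : Prime (hζ.toInteger - 1) := hζ.zeta_sub_one_prime'
  obtain ⟨w, hw, hnd⟩ := S.exists_add_eq hζ hp2 hS
  by_contra hlt
  have hn1 : S.n = 1 := by have := S.hn; omega
  rw [hn1] at hw
  simp only [Nat.sub_self, mul_zero, zero_add, pow_one] at hw
  rw [hw, pow_two, mul_dvd_mul_iff_left hπ.ne_zero] at hS
  exact hnd hS

end KSolLemmas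

end Fermat.Agent.S11
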