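import Mathlib
import Fermat.Agent.S11.CaseTwo.Local

/-!
# Kummer's descent (case 2), part D-II: factorisation in the principal ideal domain

For a normalised solution (`λ ^ 2 ∣ x + y`) of the generalised Fermat equation, the three factors
`x + y`, `x + ζ y`, `x + ζ ^ (p - 1) y` are, up to units and the appropriate power of `λ = ζ - 1`,
`p`-th powers.
-/

set_option autoImplicit false
set_option linter.unusedSectionVars false
set_option linter.unusedVariables false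

open NumberField Polynomial Finset

namespace Fermat.Agent.S11

variable {p : ℕ} [hp : Fact p.Prime] {K : Type*} [Field K] [NumberField K]
  [IsCyclotomicExtension {p} ℚ K] {ζ : K}

variable (hζ : IsPrimitiveRoot ζ p)

/-- The quotients `a η = (x + η y) / λ` and the cofactor `w` of `x + y`, with the product
formula `w * ∏_{η ≠ 1} a η = u * z ^ p`. -/
theorem Factor.exists_quot [DecidableEq (𝓞 K)] (hp2 : p ≠ 2) (S : KSol hζ)
    (hS : (hζ.toInteger - 1) ^ 2 ∣ S.x + S.y) :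
    ∃ (a : 𝓞 K → 𝓞 K) (w : 𝓞 K),
      (∀ η ∈ nthRootsFinset p (1 : 𝓞 K), S.x + η * S.y = (hζ.toInteger - 1) * a η) ∧
      S.x + S.y = (hζ.toInteger - 1) ^ (p * (S.n - 1) + 1) * w ∧
      ¬ (hζ.toInteger - 1) ∣ w ∧
      a 1 = (hζ.toInteger - 1) ^ (p * (S.n - 1)) * w ∧
      (∀ η ∈ (nthRootsFinset p (1 : 𝓞 K)).erase 1, ¬ (hζ.toInteger - 1) ∣ a η) ∧
      w * ∏ η ∈ (nthRootsFinset p (1 : 𝓞 K)).erase 1, a η = S.u * S.z ^ p := by
  have hπ : Prime (hζ.toInteger - 1) := hζ.zeta_sub_one_prime'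
  have hodd : Odd p := hp.out.odd_of_ne_two hp2
  have hζ' := hζ.toInteger_isPrimitiveRoot
  have h1 : (1 : 𝓞 K) ∈ nthRootsFinset p (1 : 𝓞 K) := Local.one_mem
  have hdvd : ∀ η ∈ nthRootsFinset p (1 : 𝓞 K), hζ.toInteger - 1 ∣ S.x + η * S.y :=
    fun η hη ↦ Local.dvd_add_mul_of_dvd_pow_add_pow hζ hp2 (S.lambda_dvd_pow_add_pow hζ) hη
  choose! a ha using hdvd
  obtain ⟨w, hw, hwnd⟩ := S.exists_add_eq hζ hp2 hS
  have ha1' : a 1 = (hζ.toInteger - 1) ^ (p * (S.n - 1)) * w := by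
    apply mul_left_cancel₀ hπ.ne_zero
    rw [← ha 1 h1, one_mul, hw, pow_succ]
    ring
  have ha1 : hζ.toInteger - 1 ∣ a 1 := by
    have := ha 1 h1
    rw [one_mul] at this
    rw [this, pow_two] at hS
    exact (mul_dvd_mul_iff_left hπ.ne_zero).mp hS
  have hane : ∀ η ∈ (nthRootsFinset p (1 : 𝓞 K)).erase 1, ¬ hζ.toInteger - 1 ∣ a η := by
    intro η hη
    rw [Finset.mem_erase] at hη
    exact Local.not_dvd_quot hζ S.hy h1 hη.2 (Ne.symm hη.1) (ha 1 h1) (ha η hη.2) ha1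
  refine ⟨a, w, ha, hw, hwnd, ha1', hane, ?_⟩
  set B : 𝓞 K := ∏ η ∈ (nthRootsFinset p (1 : 𝓞 K)).erase 1, a η with hB
  have hprod : (S.x + S.y) * ((hζ.toInteger - 1) ^ (p - 1) * B) =
      S.u * ((hζ.toInteger - 1) ^ S.n * S.z) ^ p := by
    rw [← S.eq, hζ'.pow_add_pow_eq_prod_add_mul S.x S.y hodd, ← Finset.mul_prod_erase _ _ h1,
      one_mul]
    congr 1
    rw [Finset.prod_congr rfl (fun η hη ↦ ha η (Finset.mem_of_mem_erase hη)),
      Finset.prod_mul_distrib, Finset.prod_const, Finset.card_erase_of_mem h1,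
      hζ'.card_nthRootsFinset]
  have hexp : S.n * p = (p - 1) + (p * (S.n - 1) + 1) := by
    obtain ⟨m, hm⟩ := Nat.exists_eq_add_of_le S.hn
    obtain ⟨q, hq⟩ := Nat.exists_eq_add_of_le hp.out.one_le
    rw [hm, hq]
    simp only [Nat.add_sub_cancel_left]
    ring
  apply mul_left_cancel₀ (pow_ne_zero (p * (S.n - 1) + 1) hπ.ne_zero)
  apply mul_left_cancel₀ (pow_ne_zero (p - 1) hπ.ne_zero)
  calc (hζ.toInteger - 1) ^ (p - 1) * ((hζ.toInteger - 1) ^ (p * (S.n - 1) + 1) * (w * B))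
      = ((hζ.toInteger - 1) ^ (p * (S.n - 1) + 1) * w) *
          ((hζ.toInteger - 1) ^ (p - 1) * B) := by ring
    _ = S.u * ((hζ.toInteger - 1) ^ S.n * S.z) ^ p := by rw [← hw, hprod]
    _ = (hζ.toInteger - 1) ^ (p - 1) *
          ((hζ.toInteger - 1) ^ (p * (S.n - 1) + 1) * (S.u * S.z ^ p)) := by
        rw [mul_pow, ← pow_mul, hexp, pow_add]; ring

/-- D-II.2 the factorisation used in the descent. -/
theorem KSol.exists_factorization (hp2 : p ≠ 2) [IsPrincipalIdealRing (𝓞 K)] (S : KSol hζ)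
    (hS : (hζ.toInteger - 1) ^ 2 ∣ S.x + S.y) :
    ∃ (ρ₀ ρ₁ ρ₂ : 𝓞 K) (ε₀ ε₁ ε₂ : (𝓞 K)ˣ),
      S.x + S.y = ε₀ * (hζ.toInteger - 1) ^ (p * (S.n - 1) + 1) * ρ₀ ^ p ∧
      S.x + hζ.toInteger * S.y = ε₁ * (hζ.toInteger - 1) * ρ₁ ^ p ∧
      S.x + hζ.toInteger ^ (p - 1) * S.y = ε₂ * (hζ.toInteger - 1) * ρ₂ ^ p ∧
      ¬ (hζ.toInteger - 1) ∣ ρ₀ ∧ ¬ (hζ.toInteger - 1) ∣ ρ₂ ∧ IsCoprime ρ₁ ρ₂ := by
  classical
  have hπ : Prime (hζ.toInteger - 1) := hζ.zeta_sub_one_prime'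
  have hζ' := hζ.toInteger_isPrimitiveRoot
  have hp3 : 2 < p := lt_of_le_of_ne hp.out.two_le (Ne.symm hp2)
  obtain ⟨a, w, ha, hw, hwnd, ha1, hane, hprod⟩ := Factor.exists_quot hζ hp2 S hS
  have h1 : (1 : 𝓞 K) ∈ nthRootsFinset p (1 : 𝓞 K) := Local.one_mem
  -- pairwise coprimality
  have hcop : ∀ η₁ ∈ nthRootsFinset p (1 : 𝓞 K), ∀ η₂ ∈ nthRootsFinset p (1 : 𝓞 K),
      η₁ ≠ η₂ → IsCoprime (a η₁) (a η₂) := fun η₁ hη₁ η₂ hη₂ hne ↦
    Local.isCoprime_quot hζ S.hxy hη₁ hη₂ hne (ha η₁ hη₁) (ha η₂ hη₂)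
  have hcopw : ∀ η ∈ (nthRootsFinset p (1 : 𝓞 K)).erase 1, IsCoprime (a η) w := by
    intro η hη
    rw [Finset.mem_erase] at hη
    have := hcop η hη.2 1 h1 hη.1
    rw [ha1] at this
    exact this.of_mul_right_right
  -- `w` is associated to a `p`-th power
  have hw_pow : ∃ ρ : 𝓞 K, Associated (ρ ^ p) w := by
    have hc : IsCoprime w (∏ η ∈ (nthRootsFinset p (1 : 𝓞 K)).erase 1, a η) :=
      IsCoprime.prod_right fun η hη ↦ (hcopw η hη).symm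
    have hassoc : Associated (S.z ^ p)
        (w * ∏ η ∈ (nthRootsFinset p (1 : 𝓞 K)).erase 1, a η) :=
      ⟨S.u, by rw [hprod, mul_comm]⟩
    exact exists_associated_pow_of_associated_pow_mul hc hassoc
  -- each `a η`, `η ≠ 1`, is associated to a `p`-th power
  have ha_pow : ∀ η₀ ∈ (nthRootsFinset p (1 : 𝓞 K)).erase 1,
      ∃ ρ : 𝓞 K, Associated (ρ ^ p) (a η₀) := by
    intro η₀ hη₀
    have hη₀' := Finset.mem_erase.mp hη₀
    have hc : IsCoprime (a η₀)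
        (w * ∏ η ∈ ((nthRootsFinset p (1 : 𝓞 K)).erase 1).erase η₀, a η) := by
      refine IsCoprime.mul_right (hcopw η₀ hη₀) (IsCoprime.prod_right fun η hη ↦ ?_)
      rw [Finset.mem_erase, Finset.mem_erase] at hη
      exact hcop η₀ hη₀'.2 η hη.2.2 (Ne.symm hη.1)
    have hassoc : Associated (S.z ^ p)
        (a η₀ * (w * ∏ η ∈ ((nthRootsFinset p (1 : 𝓞 K)).erase 1).erase η₀, a η)) := by
      refine ⟨S.u, ?_⟩
      rw [mul_comm, ← hprod, ← Finset.mul_prod_erase _ _ hη₀]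
      ring
    exact exists_associated_pow_of_associated_pow_mul hc hassoc
  -- the roots of unity `ζ` and `ζ ^ (p - 1)`
  have hζ1 : hζ.toInteger ∈ (nthRootsFinset p (1 : 𝓞 K)).erase 1 := by
    rw [Finset.mem_erase]
    refine ⟨hζ'.ne_one hp.out.one_lt, ?_⟩
    simpa using Local.zeta_pow_mem hζ 1
  have hζ2 : hζ.toInteger ^ (p - 1) ∈ (nthRootsFinset p (1 : 𝓞 K)).erase 1 := by
    rw [Finset.mem_erase]
    exact ⟨hζ'.pow_ne_one_of_pos_of_lt (by omega) (by omega), Local.zeta_pow_mem hζ (p - 1)⟩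
  have hζ12 : hζ.toInteger ≠ hζ.toInteger ^ (p - 1) := by
    intro e
    have h2 : hζ.toInteger ^ 2 = 1 := by
      have hp1 : p - 1 + 1 = p := Nat.sub_add_cancel hp.out.one_le
      calc hζ.toInteger ^ 2 = hζ.toInteger * hζ.toInteger := pow_two _
        _ = hζ.toInteger ^ (p - 1) * hζ.toInteger := by rw [← e]
        _ = 1 := by rw [← pow_succ, hp1, hζ'.pow_eq_one]
    exact hζ'.pow_ne_one_of_pos_of_lt (by omega) hp3 h2
  obtain ⟨ρ₀, ε₀, hρ₀⟩ := hw_pow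
  obtain ⟨ρ₁, ε₁, hρ₁⟩ := ha_pow _ hζ1
  obtain ⟨ρ₂, ε₂, hρ₂⟩ := ha_pow _ hζ2
  refine ⟨ρ₀, ρ₁, ρ₂, ε₀, ε₁, ε₂, ?_, ?_, ?_, ?_, ?_, ?_⟩
  · rw [hw, ← hρ₀]; ring
  · rw [ha _ (Finset.mem_of_mem_erase hζ1), ← hρ₁]; ring
  · rw [ha _ (Finset.mem_of_mem_erase hζ2), ← hρ₂]; ring
  · intro h
    apply hwnd
    rw [← hρ₀]
    exact dvd_mul_of_dvd_left (dvd_pow h hp.out.ne_zero) _
  · intro h
    apply hane _ hζ2
    rw [← hρ₂]
    exact dvd_mul_of_dvd_left (dvd_pow h hp.out.ne_zero) _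
  · have := hcop _ (Finset.mem_of_mem_erase hζ1) _ (Finset.mem_of_mem_erase hζ2) hζ12
    rw [← hρ₁, ← hρ₂] at this
    exact (IsCoprime.pow_iff hp.out.pos hp.out.pos).mp
      this.of_mul_left_left.of_mul_right_left

end Fermat.Agent.S11
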