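import Mathlib
import Fermat.Agent.S11.CaseTwo.Defs

/-!
# Kummer's descent (case 2): from a rational integer solution to a `KSol`

A solution `a ^ p + b ^ p = c ^ p` in rational integers with `a`, `b` coprime, `c ≠ 0` and
`p ∣ c` gives a solution of the generalised Fermat equation in the ring of integers of the
`p`-th cyclotomic field.
-/

set_option autoImplicit false
set_option linter.unusedVariables false
set_option linter.unusedSectionVars false

open NumberField

namespace Fermat.Agent.S11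

variable {p : ℕ} [hp : Fact p.Prime] {K : Type*} [Field K] [NumberField K]
  [IsCyclotomicExtension {p} ℚ K] {ζ : K}

variable (hζ : IsPrimitiveRoot ζ p)

namespace OfInt

/-- A nonzero integer is a power of `p` times an integer prime to `p`. -/
theorem exists_eq_prime_pow_mul {c : ℤ} (hc : c ≠ 0) :
    ∃ (k : ℕ) (c' : ℤ), c = (p : ℤ) ^ k * c' ∧ ¬ (p : ℤ) ∣ c' := by
  have hpZ : Prime (p : ℤ) := Nat.prime_iff_prime_int.mp hp.out
  have hfin : FiniteMultiplicity (p : ℤ) c :=
    FiniteMultiplicity.of_prime_left hpZ hc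
  obtain ⟨c', hc', hndvd⟩ := hfin.exists_eq_pow_mul_and_not_dvd
  exact ⟨_, c', hc', hndvd⟩

end OfInt

/-- D-III.3 a case-2 integer solution gives a `KSol`. -/
theorem exists_KSol_of_int (hp2 : p ≠ 2) {a b c : ℤ} (hab : IsCoprime a b) (hc : c ≠ 0)
    (hpc : (p : ℤ) ∣ c) (h : a ^ p + b ^ p = c ^ p) : Nonempty (KSol hζ) := by
  have hpZ : Prime (p : ℤ) := Nat.prime_iff_prime_int.mp hp.out
  have hp0 : p ≠ 0 := hp.out.ne_zero
  -- `p ∤ b`
  have hpb : ¬ (p : ℤ) ∣ b := by
    intro hb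
    have ha : (p : ℤ) ∣ a := by
      apply hpZ.dvd_of_dvd_pow (n := p)
      have : a ^ p = c ^ p - b ^ p := by linear_combination h
      rw [this]
      exact dvd_sub (dvd_pow hpc hp0) (dvd_pow hb hp0)
    exact hpZ.not_isUnit (hab.isUnit_of_dvd' ha hb)
  -- write `c = p ^ k * c'`
  obtain ⟨k, c', hcc', hpc'⟩ := OfInt.exists_eq_prime_pow_mul (p := p) hc
  have hk : 1 ≤ k := by
    rcases Nat.eq_zero_or_pos k with hk0 | hk0
    · exfalso
      apply hpc'
      rw [hk0, pow_zero, one_mul] at hcc'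
      rwa [← hcc']
    · exact hk0
  -- `p = λ ^ (p - 1) * u`
  obtain ⟨u, hu⟩ := IsCyclotomicExtension.Rat.associated_zeta_sub_one_pow_prime p hζ
  have hp1 : 1 ≤ p - 1 := by have := hp.out.two_le; omega
  refine ⟨⟨(a : 𝓞 K), (b : 𝓞 K), (u : 𝓞 K) ^ k * (c' : 𝓞 K), 1, (p - 1) * k,
    Nat.one_le_iff_ne_zero.mpr (Nat.mul_ne_zero (by omega) (by omega)), ?_, ?_, ?_, ?_⟩⟩
  · rwa [IsCyclotomicExtension.Rat.zeta_sub_one_dvd_intCast_iff' p hζ]
  · rw [← Units.val_pow_eq_pow_val, Units.dvd_mul_left,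
      IsCyclotomicExtension.Rat.zeta_sub_one_dvd_intCast_iff' p hζ]
    exact hpc'
  · exact hab.intCast
  · have hcast : ((c : ℤ) : 𝓞 K) = (hζ.toInteger - 1) ^ ((p - 1) * k) * ((u : 𝓞 K) ^ k * c') := by
      rw [hcc']
      push_cast
      rw [← hu, mul_pow, ← pow_mul]
      ring
    rw [Units.val_one, one_mul, ← hcast]
    exact_mod_cast congrArg (Int.cast : ℤ → 𝓞 K) h

end Fermat.Agent.S11
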