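import Mathlib
import Fermat.Agent.S11.CaseTwo.Defs

/-!
# Kummer's descent (case 2), part D-II.1: coprimality of the quotients

* `associated_lambda_pow_sub_pow`: `ζ ^ i - ζ ^ j` is associated to `λ = ζ - 1` if `i ≢ j mod p`.
* `KSol.isCoprime_quot`: the quotients `(x + ζ ^ i * y) / λ` are pairwise coprime.
* `exists_associated_pow_of_prod_associated_pow`, `exists_unit_mul_pow_of_prod_eq_unit_mul_pow`:
  in a Bézout domain, if a product of pairwise coprime elements is (a unit times) a `k`-th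
  power, then so is each factor.
-/

set_option autoImplicit false

open NumberField

namespace Fermat.Agent.S11

section Generic

variable {R : Type*} [CommRing R] [IsDomain R] [IsBezout R]

/-- In a Bézout domain, if a finite product of pairwise coprime elements is associated to a
`k`-th power, then each factor is associated to a `k`-th power. -/
theorem exists_associated_pow_of_prod_associated_pow {ι : Type*} {s : Finset ι} {f : ι → R}
    {c : R} {k : ℕ} (h : ∀ i ∈ s, ∀ j ∈ s, i ≠ j → IsCoprime (f i) (f j))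
    (hprod : Associated (c ^ k) (∏ i ∈ s, f i)) :
    ∀ i ∈ s, ∃ d : R, Associated (d ^ k) (f i) := by
  classical
  intro i hi
  rw [← Finset.insert_erase hi, Finset.prod_insert (Finset.notMem_erase i s)] at hprod
  refine exists_associated_pow_of_associated_pow_mul
    (IsCoprime.prod_right fun j hj => h i hi j (Finset.erase_subset i s hj) fun hij => ?_) hprod
  rw [hij] at hj
  exact (s.notMem_erase _) hj

/-- In a Bézout domain, if a finite product of pairwise coprime elements is a unit times a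
`k`-th power, then each factor is a unit times a `k`-th power. -/
theorem exists_unit_mul_pow_of_prod_eq_unit_mul_pow {ι : Type*} {s : Finset ι} {f : ι → R}
    {c : R} {u : Rˣ} {k : ℕ} (h : ∀ i ∈ s, ∀ j ∈ s, i ≠ j → IsCoprime (f i) (f j))
    (hprod : ∏ i ∈ s, f i = u * c ^ k) :
    ∀ i ∈ s, ∃ (v : Rˣ) (d : R), f i = v * d ^ k := by
  intro i hi
  have hassoc : Associated (c ^ k) (∏ i ∈ s, f i) := ⟨u, by rw [hprod, mul_comm]⟩
  obtain ⟨d, v, hv⟩ := exists_associated_pow_of_prod_associated_pow h hassoc i hi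
  exact ⟨v, d, by rw [← hv, mul_comm]⟩

/-- Two-factor version: in a Bézout domain, if `a * b = u * c ^ k` with `a`, `b` coprime and `u`
a unit, then `a` is a unit times a `k`-th power. -/
theorem exists_unit_mul_pow_of_mul_eq_unit_mul_pow {a b c : R} {u : Rˣ} {k : ℕ}
    (hab : IsCoprime a b) (h : a * b = u * c ^ k) :
    ∃ (v : Rˣ) (d : R), a = v * d ^ k := by
  have hassoc : Associated (c ^ k) (a * b) := ⟨u, by rw [h, mul_comm]⟩
  obtain ⟨d, v, hv⟩ := exists_associated_pow_of_associated_pow_mul hab hassoc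
  exact ⟨v, d, by rw [← hv, mul_comm]⟩

end Generic

variable {p : ℕ} [hp : Fact p.Prime] {K : Type*} [Field K] [NumberField K]
  [IsCyclotomicExtension {p} ℚ K] {ζ : K}

omit [NumberField K] [IsCyclotomicExtension {p} ℚ K] in
/-- `ζ ^ i ≠ ζ ^ j` in `𝓞 K` if `i ≢ j mod p`. -/
theorem toInteger_pow_ne_pow (hζ : IsPrimitiveRoot ζ p) {i j : ℕ}
    (hij : ¬ (p : ℤ) ∣ (i : ℤ) - j) : hζ.toInteger ^ i ≠ hζ.toInteger ^ j := by
  intro h
  apply hij
  have hη := hζ.toInteger_isPrimitiveRoot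
  have h1 : i ≡ j [MOD p] := by
    obtain ⟨u, hu⟩ := hη.isUnit hp.out.ne_zero
    have hu' : u ^ i = u ^ j := by
      apply Units.ext
      rw [Units.val_pow_eq_pow_val, Units.val_pow_eq_pow_val, hu]
      exact h
    have := pow_eq_pow_iff_modEq.mp hu'
    rwa [← orderOf_units, hu, ← hη.eq_orderOf] at this
  have h2 : (i : ℤ) ≡ j [ZMOD p] := Int.natCast_modEq_iff.mpr h1
  exact (Int.modEq_iff_dvd.mp h2.symm)

omit [NumberField K] [IsCyclotomicExtension {p} ℚ K] in
/-- `ζ ^ i - ζ ^ j` is associated to `λ = ζ - 1` if `i ≢ j mod p`. -/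
theorem associated_lambda_pow_sub_pow (hζ : IsPrimitiveRoot ζ p) {i j : ℕ}
    (hij : ¬ (p : ℤ) ∣ (i : ℤ) - j) :
    Associated (hζ.toInteger - 1) (hζ.toInteger ^ i - hζ.toInteger ^ j) := by
  have hη := hζ.toInteger_isPrimitiveRoot
  have hmem : ∀ k : ℕ, hζ.toInteger ^ k ∈ Polynomial.nthRootsFinset p (1 : 𝓞 K) := by
    intro k
    rw [Polynomial.mem_nthRootsFinset hp.out.pos, ← pow_mul, mul_comm, pow_mul, hη.pow_eq_one,
      one_pow]
  exact hη.nthRootsFinset_pairwise_associated_sub_one_sub_of_prime hp.out (hmem i) (hmem j)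
    (toInteger_pow_ne_pow hζ hij)

set_option linter.unusedVariables false in
/-- D-II.1 the quotients `(x + ζ ^ i * y) / λ` are pairwise coprime. Stated without division:
if `x + ζ ^ i * y = λ * a` and `x + ζ ^ j * y = λ * b`, `i ≢ j mod p`, then `a, b` are coprime. -/
theorem KSol.isCoprime_quot (hζ : IsPrimitiveRoot ζ p) (hp2 : p ≠ 2) (S : KSol hζ) {i j : ℕ}
    (hij : ¬ (p : ℤ) ∣ (i : ℤ) - j)
    {a b : 𝓞 K} (ha : S.x + hζ.toInteger ^ i * S.y = (hζ.toInteger - 1) * a)
    (hb : S.x + hζ.toInteger ^ j * S.y = (hζ.toInteger - 1) * b) : IsCoprime a b := by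
  obtain ⟨w, hw⟩ := associated_lambda_pow_sub_pow hζ hij
  have hl0 : hζ.toInteger - 1 ≠ 0 := hζ.zeta_sub_one_prime'.ne_zero
  -- `w * y = a - b`
  have hy : (w : 𝓞 K) * S.y = a - b := by
    apply mul_left_cancel₀ hl0
    rw [← mul_assoc, hw]
    linear_combination ha - hb
  -- `w * x = ζ ^ i * b - ζ ^ j * a`
  have hx : (w : 𝓞 K) * S.x = hζ.toInteger ^ i * b - hζ.toInteger ^ j * a := by
    apply mul_left_cancel₀ hl0
    rw [← mul_assoc, hw]
    linear_combination hζ.toInteger ^ i * hb - hζ.toInteger ^ j * ha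
  obtain ⟨r, s, hrs⟩ := S.hxy
  have hwinv : ((w⁻¹ : (𝓞 K)ˣ) : 𝓞 K) * (w : 𝓞 K) = 1 := by
    rw [← Units.val_mul, inv_mul_cancel, Units.val_one]
  refine ⟨((w⁻¹ : (𝓞 K)ˣ) : 𝓞 K) * (s - r * hζ.toInteger ^ j),
    ((w⁻¹ : (𝓞 K)ˣ) : 𝓞 K) * (r * hζ.toInteger ^ i - s), ?_⟩
  linear_combination ((w⁻¹ : (𝓞 K)ˣ) : 𝓞 K) * r * (-hx) + ((w⁻¹ : (𝓞 K)ˣ) : 𝓞 K) * s * (-hy)
    + (r * S.x + s * S.y) * hwinv + hrs
end Fermat.Agent.S11
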