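import Mathlib
import Fermat.Agent.S11.PowModP
import Fermat.Agent.S11.CaseTwo.Local
import Fermat.Agent.S11.CaseTwo.Factor
import Fermat.Agent.S11.CaseTwo.DescentCore

/-!
# Kummer's descent (case 2): the descent step and the induction

`KSol.descent`: a normalised solution of the generalised Fermat equation gives a solution with
smaller exponent of `λ`.  `KSol.false`: there is no solution.
-/

set_option autoImplicit false

open NumberField

namespace Fermat.Agent.S11

variable {p : ℕ} [hp : Fact p.Prime] {K : Type*} [Field K] [NumberField K]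
  [IsCyclotomicExtension {p} ℚ K] {ζ : K}

variable (hζ : IsPrimitiveRoot ζ p)

/-- D-III.1 the descent step. -/
theorem KSol.descent (hp2 : p ≠ 2) [IsPrincipalIdealRing (𝓞 K)] (hK : KummerLemmaHolds p K)
    (S : KSol hζ) (hS : (hζ.toInteger - 1) ^ 2 ∣ S.x + S.y) :
    ∃ S' : KSol hζ, S'.n + 1 = S.n :=
  Descent.descent_of hζ hp2 hK (exists_int_sub_pow_dvd hp2) S (S.two_le_n hζ hp2 hS)
    (S.exists_factorization hζ hp2 hS)

/-- D-III.2 there is no solution. -/
theorem KSol.false (hp2 : p ≠ 2) [IsPrincipalIdealRing (𝓞 K)] (hK : KummerLemmaHolds p K)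
    (S : KSol hζ) : False :=
  Descent.false_of hζ (fun S => S.exists_normalized hζ hp2)
    (fun S hS => S.descent hζ hp2 hK hS) S

end Fermat.Agent.S11
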