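import Mathlib
import Fermat.Agent.S11.CaseTwo.OfInt
import Fermat.Agent.S11.CaseTwo.Descent

/-!
# Kummer's descent (case 2): the second case of Fermat's Last Theorem

Let `p ≥ 5` be a prime such that the ring of integers of the `p`-th cyclotomic field `K` is a
principal ideal ring and such that Kummer's lemma holds for `K`.  Then there is no solution of
`a ^ p + b ^ p = c ^ p` in rational integers with `a`, `b` coprime, `c ≠ 0` and `p ∣ c`.
-/

set_option autoImplicit false

open NumberField

namespace Fermat.Agent.S11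

/-- (D) Case 2. -/
theorem caseTwo {p : ℕ} [Fact p.Prime] (hp5 : 5 ≤ p) (K : Type*) [Field K] [NumberField K]
    [IsCyclotomicExtension {p} ℚ K] [IsPrincipalIdealRing (𝓞 K)]
    (hK : KummerLemmaHolds p K) {a b c : ℤ} (hab : IsCoprime a b) (hc : c ≠ 0)
    (hpc : (p : ℤ) ∣ c) (h : a ^ p + b ^ p = c ^ p) : False := by
  have hp2 : p ≠ 2 := by omega
  have hζ := IsCyclotomicExtension.zeta_spec p ℚ K
  obtain ⟨S⟩ := exists_KSol_of_int hζ hp2 hab hc hpc h
  exact S.false hζ hp2 hK

end Fermat.Agent.S11
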